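import Mathlib.RingTheory.AdicCompletion.Basic

/-!
# S53, WP-C: the Cauchy-sum lemma

For an `I`-adically complete ring `P`, a decreasing chain of ideals `K j` with
`I ^ e j ≤ K j` and `K j ≤ K (j + 1) ⊔ I ^ e j` satisfies `K j ≤ (⨅ m, K m) ⊔ I ^ e j`.
-/

set_option autoImplicit false

namespace Fermat.Agent.S53.H36

theorem le_iInf_sup_pow {P : Type} [CommRing P] (I : Ideal P) [IsAdicComplete I P]
    (K : ℕ → Ideal P) (e : ℕ → ℕ) (he : Monotone e) (hle : ∀ j, j ≤ e j)
    (hK : ∀ j, K (j + 1) ≤ K j) (hI : ∀ j, I ^ e j ≤ K j)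
    (hstep : ∀ j, K j ≤ K (j + 1) ⊔ I ^ e j) :
    ∀ j, K j ≤ (⨅ m, K m) ⊔ I ^ e j := by
  intro j x hx
  have hKanti : Antitone K := antitone_nat_of_succ_le hK
  -- one step of the approximation
  have hstep' : ∀ (l : ℕ) (y : P), y ∈ K (j + l) →
      ∃ y' : P, y' ∈ K (j + l + 1) ∧ y - y' ∈ I ^ e (j + l) := by
    intro l y hy
    obtain ⟨a, ha, b, hb, hab⟩ := Submodule.mem_sup.mp (hstep (j + l) hy)
    refine ⟨a, ha, ?_⟩
    rw [← hab, add_sub_cancel_left]
    exact hb
  choose! nxt hnxt_mem hnxt_sub using hstep'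
  -- the approximating sequence
  let xs : ℕ → P := fun l => Nat.rec x (fun l y => nxt l y) l
  have hxs0 : xs 0 = x := rfl
  have hxs_succ : ∀ l, xs (l + 1) = nxt l (xs l) := fun _ => rfl
  have hxs_mem : ∀ l, xs l ∈ K (j + l) := by
    intro l
    induction l with
    | zero => simpa [hxs0] using hx
    | succ l ih => rw [hxs_succ]; exact hnxt_mem l (xs l) ih
  have hxs_sub : ∀ l, xs l - xs (l + 1) ∈ I ^ e (j + l) := by
    intro l
    rw [hxs_succ]
    exact hnxt_sub l (xs l) (hxs_mem l)
  have hdiff : ∀ m n, m ≤ n → xs m - xs n ∈ I ^ e (j + m) := by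
    intro m n hmn
    induction n, hmn using Nat.le_induction with
    | base => rw [sub_self]; exact Ideal.zero_mem _
    | succ n hmn ih =>
      have h1 : xs n - xs (n + 1) ∈ I ^ e (j + m) :=
        Ideal.pow_le_pow_right (he (by omega)) (hxs_sub n)
      have h2 : xs m - xs (n + 1) = (xs m - xs n) + (xs n - xs (n + 1)) := by ring
      rw [h2]
      exact Ideal.add_mem _ ih h1
  -- the partial sums converge
  have hsmul : ∀ n : ℕ, (I ^ n • ⊤ : Submodule P P) = I ^ n := fun n => by
    rw [smul_eq_mul, Ideal.mul_top]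
  obtain ⟨L, hL⟩ := IsPrecomplete.prec (I := I) (M := P) inferInstance
    (f := fun n => x - xs n) (by
      intro m n hmn
      rw [SModEq.sub_mem, hsmul]
      have h := hdiff m n hmn
      have h2 : (x - xs m) - (x - xs n) = -(xs m - xs n) := by ring
      rw [h2]
      exact Ideal.neg_mem_iff _ |>.mpr
        (Ideal.pow_le_pow_right ((Nat.le_add_left m j).trans (hle (j + m))) h))
  have hL' : ∀ n, (x - xs n) - L ∈ I ^ n := by
    intro n
    have := hL n
    rwa [SModEq.sub_mem, hsmul] at this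
  -- the limit lies in `I ^ e j`
  have hLmem : L ∈ I ^ e j := by
    have h1 : x - xs (e j) ∈ I ^ e j := by
      have := hdiff 0 (e j) (Nat.zero_le _)
      rwa [hxs0, Nat.add_zero] at this
    have h2 : L = (x - xs (e j)) - ((x - xs (e j)) - L) := by ring
    rw [h2]
    exact Ideal.sub_mem _ h1 (hL' (e j))
  -- `x - L` lies in every `K m`
  have hxL : x - L ∈ ⨅ m, K m := by
    rw [Submodule.mem_iInf]
    intro m
    have h1 : xs (max m (e m)) ∈ K m :=
      hKanti (by omega) (hxs_mem (max m (e m)))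
    have h2 : (x - xs (max m (e m))) - L ∈ K m :=
      hI m (Ideal.pow_le_pow_right (le_max_right m (e m)) (hL' (max m (e m))))
    have h3 : x - L = xs (max m (e m)) + ((x - xs (max m (e m))) - L) := by ring
    rw [h3]
    exact Ideal.add_mem _ h1 h2
  have hx' : x = (x - L) + L := by ring
  rw [hx']
  exact Submodule.add_mem_sup hxL hLmem

end Fermat.Agent.S53.H36
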